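import Mathlib
import Fermat.Agent.S14.Wiring.Kummer

/-!
# Kummer dictionary, generator part (general number field)

`Qb = AlgebraicClosure ℚ`, `K ≤ Qb` finite over `ℚ` containing a primitive `p`-th root of unity
`ζ`, `G_K = K.fixingSubgroup`.

* `exists_kummer_of_hom` (G1): every function `c : Gal(Qb/ℚ) → ZMod p` which is additive on `G_K`
  and vanishes on `G_K ∩ Fix F` for some finite `F` is a Kummer character:
  `σ θ = ζ ^ (c σ) * θ` on `G_K`, for some `θ ≠ 0` with `θ ^ p ∈ K`.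
* `mem_of_forall_fixingSubgroup`, `div_mem_of_same_char` (G2): uniqueness up to `Kˣ`.
* `exists_hom_of_kummer` (G3): conversely every `θ` with `θ ^ p ∈ Kˣ` has a Kummer character,
  additive on `G_K` and constant on cosets of `Fix K(θ)`.
-/

set_option autoImplicit false

open scoped IntermediateField

namespace Fermat.Agent.CFT.Kummer

local notation "Qb" => AlgebraicClosure ℚ
local notation "Gq" => (AlgebraicClosure ℚ ≃ₐ[ℚ] AlgebraicClosure ℚ)

/-- An element of `Qb` fixed by `G_K` lies in `K`. -/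
theorem mem_of_forall_fixingSubgroup (K : IntermediateField ℚ Qb) (x : Qb)
    (hx : ∀ τ ∈ K.fixingSubgroup, τ x = x) : x ∈ K := by
  have hgal := Fermat.Agent.S14.Base.isGalois
  have hfixedK : IntermediateField.fixedField K.fixingSubgroup = K :=
    InfiniteGalois.fixedField_fixingSubgroup K
  rw [← hfixedK, IntermediateField.mem_fixedField_iff]
  exact hx

/-- **(G1)** Kummer generator of an additive character of `G_K`. -/
theorem exists_kummer_of_hom {p : ℕ} [Fact p.Prime] (K : IntermediateField ℚ Qb)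
    [FiniteDimensional ℚ K] (ζ : K) (hζ : IsPrimitiveRoot ζ p) (c : Gq → ZMod p)
    (hadd : ∀ σ ∈ K.fixingSubgroup, ∀ τ ∈ K.fixingSubgroup, c (σ * τ) = c σ + c τ)
    (hlev : ∃ F : IntermediateField ℚ Qb, FiniteDimensional ℚ F ∧
      ∀ s ∈ F.fixingSubgroup, s ∈ K.fixingSubgroup → c s = 0) :
    ∃ (α : K) (θ : Qb), α ≠ 0 ∧ θ ^ p = (α : Qb) ∧
      ∀ σ ∈ K.fixingSubgroup, σ θ = (ζ : Qb) ^ (c σ).val * θ := by
  classical
  have hp : p.Prime := Fact.out
  have : NeZero p := ⟨hp.ne_zero⟩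
  set z : Qb := (ζ : Qb) with hz
  have hzprim : IsPrimitiveRoot z p := hζ.map_of_injective (f := K.val) K.val.injective
  have hz0 : z ≠ 0 := hzprim.ne_zero hp.ne_zero
  have hzp : z ^ p = 1 := hzprim.pow_eq_one
  have hfixz : ∀ τ ∈ K.fixingSubgroup, τ z = z := fun τ hτ =>
    (IntermediateField.mem_fixingSubgroup_iff K τ).mp hτ z ζ.2
  have hc1 : c 1 = 0 := by
    have h := hadd 1 (one_mem _) 1 (one_mem _)
    rw [mul_one] at h
    exact left_eq_add.mp h
  have hcinv : ∀ σ ∈ K.fixingSubgroup, c σ⁻¹ = - c σ := by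
    intro σ hσ
    have h := hadd σ hσ σ⁻¹ (inv_mem hσ)
    rw [mul_inv_cancel, hc1] at h
    exact eq_neg_of_add_eq_zero_right h.symm
  have hcpow : ∀ σ ∈ K.fixingSubgroup, ∀ n : ℕ, c (σ ^ n) = n * c σ := by
    intro σ hσ n
    induction n with
    | zero => simp [hc1]
    | succ n ih =>
      rw [pow_succ, hadd _ (pow_mem hσ n) _ hσ, ih]
      push_cast
      ring
  by_cases htriv : ∀ σ ∈ K.fixingSubgroup, c σ = 0
  · refine ⟨1, 1, one_ne_zero, by simp, fun σ hσ => ?_⟩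
    rw [htriv σ hσ]
    simp
  push Not at htriv
  obtain ⟨g, hgK, hg⟩ := htriv
  -- normalise the generator
  set g0 : Gq := g ^ ((c g)⁻¹).val with hg0
  have hg0K : g0 ∈ K.fixingSubgroup := pow_mem hgK _
  have hcg0 : c g0 = 1 := by
    rw [hg0, hcpow g hgK, ZMod.natCast_zmod_val, inv_mul_cancel₀ hg]
  -- the kernel
  let N : Subgroup Gq :=
    { carrier := {σ | σ ∈ K.fixingSubgroup ∧ c σ = 0}
      one_mem' := ⟨one_mem _, hc1⟩
      mul_mem' := fun {a b} ha hb =>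
        ⟨mul_mem ha.1 hb.1, by rw [hadd a ha.1 b hb.1, ha.2, hb.2, add_zero]⟩
      inv_mem' := fun {a} ha => ⟨inv_mem ha.1, by rw [hcinv a ha.1, ha.2, neg_zero]⟩ }
  have hNmem : ∀ σ, σ ∈ N ↔ σ ∈ K.fixingSubgroup ∧ c σ = 0 := fun σ => Iff.rfl
  have hNK : N ≤ K.fixingSubgroup := fun σ hσ => hσ.1
  have hNcl : IsClosed (N : Set Gq) := by
    obtain ⟨F, hF, hFc⟩ := hlev
    have hle : (F ⊔ K).fixingSubgroup ≤ N := by
      intro s hs
      rw [IntermediateField.fixingSubgroup_sup] at hs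
      exact ⟨hs.2, hFc s hs.1 hs.2⟩
    have hfd : FiniteDimensional ℚ ↥(F ⊔ K) := IntermediateField.finiteDimensional_sup F K
    have hopen : IsOpen ((F ⊔ K).fixingSubgroup : Set Gq) :=
      IntermediateField.fixingSubgroup_isOpen (F ⊔ K)
    exact Subgroup.isClosed_of_isOpen N (Subgroup.isOpen_mono hle hopen)
  have hg0N : g0 ∉ N := fun h => by
    rw [hNmem, hcg0] at h
    exact one_ne_zero h.2
  have hpow : g0 ^ p ∈ N :=
    ⟨pow_mem hg0K p, by rw [hcpow g0 hg0K, hcg0, mul_one]; exact ZMod.natCast_self p⟩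
  obtain ⟨y, hyN, hθ0⟩ :=
    Fermat.Agent.S14.Wiring.Kummer.exists_resolvent_ne_zero hp z N hNcl g0 hg0N hpow
  set θ : Qb := ∑ i ∈ Finset.range p, z⁻¹ ^ i * (g0 ^ i) y with hθdef
  have hg0z : g0 z = z := hfixz g0 hg0K
  have hg0py : (g0 ^ p) y = y := hyN _ hpow
  -- `g0 θ = z θ`
  have hg0θ : g0 θ = z * θ := by
    have h1 : g0 θ = ∑ i ∈ Finset.range p, z⁻¹ ^ i * (g0 ^ (i + 1)) y := by
      rw [hθdef, map_sum]
      refine Finset.sum_congr rfl fun i _ => ?_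
      rw [map_mul, map_pow, map_inv₀, hg0z, pow_succ', AlgEquiv.mul_apply]
    have h2 : z * θ = ∑ i ∈ Finset.range p, z⁻¹ ^ i * z * (g0 ^ i) y := by
      rw [hθdef, Finset.mul_sum]
      refine Finset.sum_congr rfl fun i _ => ?_
      ring
    have h3 : ∑ i ∈ Finset.range p, z⁻¹ ^ i * z * (g0 ^ i) y
        = ∑ i ∈ Finset.range p, z⁻¹ ^ i * (g0 ^ (i + 1)) y := by
      have hA : ∑ i ∈ Finset.range (p + 1), z⁻¹ ^ i * z * (g0 ^ i) y
          = ∑ i ∈ Finset.range p, z⁻¹ ^ i * (g0 ^ (i + 1)) y + z * y := by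
        rw [Finset.sum_range_succ']
        congr 1
        · refine Finset.sum_congr rfl fun i _ => ?_
          rw [pow_succ, mul_assoc (z⁻¹ ^ i), inv_mul_cancel₀ hz0, mul_one]
        · simp
      have hB : ∑ i ∈ Finset.range (p + 1), z⁻¹ ^ i * z * (g0 ^ i) y
          = ∑ i ∈ Finset.range p, z⁻¹ ^ i * z * (g0 ^ i) y + z * y := by
        rw [Finset.sum_range_succ, hg0py, inv_pow, hzp, inv_one, one_mul]
      exact add_right_cancel (hB.symm.trans hA)
    rw [h1, h2, h3]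
  -- `N` fixes `θ`
  have hNθ : ∀ σ ∈ N, σ θ = θ := by
    intro σ hσ
    have hσz : σ z = z := hfixz σ (hNK hσ)
    rw [hθdef, map_sum]
    refine Finset.sum_congr rfl fun i _ => ?_
    rw [map_mul, map_pow, map_inv₀, hσz]
    congr 1
    have hconjmem : (g0 ^ i)⁻¹ * σ * (g0 ^ i) ∈ N := by
      have hgi : g0 ^ i ∈ K.fixingSubgroup := pow_mem hg0K i
      refine ⟨mul_mem (mul_mem (inv_mem hgi) hσ.1) hgi, ?_⟩
      rw [hadd _ (mul_mem (inv_mem hgi) hσ.1) _ hgi, hadd _ (inv_mem hgi) _ hσ.1, hcinv _ hgi,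
        hσ.2]
      ring
    have h4 : σ * g0 ^ i = g0 ^ i * ((g0 ^ i)⁻¹ * σ * (g0 ^ i)) := by group
    calc σ ((g0 ^ i) y) = (σ * g0 ^ i) y := rfl
      _ = (g0 ^ i * ((g0 ^ i)⁻¹ * σ * (g0 ^ i))) y := by rw [h4]
      _ = (g0 ^ i) (((g0 ^ i)⁻¹ * σ * (g0 ^ i)) y) := rfl
      _ = (g0 ^ i) y := by rw [hyN _ hconjmem]
  have hg0kθ : ∀ k : ℕ, (g0 ^ k) θ = z ^ k * θ := by
    intro k
    induction k with
    | zero => simp
    | succ k ih =>
      rw [pow_succ', AlgEquiv.mul_apply, ih, map_mul, map_pow, hg0z, hg0θ, pow_succ]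
      ring
  have hGKθ : ∀ τ ∈ K.fixingSubgroup, τ θ = z ^ (c τ).val * θ := by
    intro τ hτ
    set k := (c τ).val with hk
    have hmem : (g0 ^ k)⁻¹ * τ ∈ N := by
      have hgk : g0 ^ k ∈ K.fixingSubgroup := pow_mem hg0K k
      refine ⟨mul_mem (inv_mem hgk) hτ, ?_⟩
      rw [hadd _ (inv_mem hgk) _ hτ, hcinv _ hgk, hcpow g0 hg0K, hcg0, mul_one, hk,
        ZMod.natCast_zmod_val]
      ring
    have h5 : τ = g0 ^ k * ((g0 ^ k)⁻¹ * τ) := by group
    calc τ θ = (g0 ^ k * ((g0 ^ k)⁻¹ * τ)) θ := by rw [← h5]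
      _ = (g0 ^ k) (((g0 ^ k)⁻¹ * τ) θ) := rfl
      _ = (g0 ^ k) θ := by rw [hNθ _ hmem]
      _ = z ^ k * θ := hg0kθ k
  have hθpK : θ ^ p ∈ K := by
    refine mem_of_forall_fixingSubgroup K _ fun τ hτ => ?_
    rw [map_pow, hGKθ τ hτ, mul_pow, ← pow_mul, mul_comm _ p, pow_mul, hzp, one_pow, one_mul]
  refine ⟨⟨θ ^ p, hθpK⟩, θ, ?_, rfl, hGKθ⟩
  intro h0
  have h1 : θ ^ p = 0 := congrArg (fun a : K => (a : Qb)) h0
  exact hθ0 ((pow_eq_zero_iff hp.ne_zero).mp h1)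

/-- **(G2)** Two Kummer generators with the same character differ by an element of `K`. -/
theorem div_mem_of_same_char (K : IntermediateField ℚ Qb) (θ θ' : Qb) (hθ' : θ' ≠ 0)
    (h : ∀ σ ∈ K.fixingSubgroup, σ θ * θ' = θ * σ θ') : θ / θ' ∈ K := by
  refine mem_of_forall_fixingSubgroup K _ fun σ hσ => ?_
  have hσθ' : σ θ' ≠ 0 := by
    intro h0
    exact hθ' (by simpa using h0)
  rw [map_div₀, div_eq_div_iff hσθ' hθ']
  exact h σ hσ

/-- Exponents of a primitive `p`-th root of unity are determined modulo `p`. -/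
theorem natCast_eq_of_pow_eq_pow_val {p : ℕ} [NeZero p] {R : Type*} [CommMonoid R] {z : R}
    (hz : IsPrimitiveRoot z p) (n : ℕ) (k : ZMod p) (h : z ^ n = z ^ k.val) :
    (n : ZMod p) = k := by
  rw [pow_eq_pow_mod n hz.pow_eq_one] at h
  have h1 : n % p = k.val := hz.pow_inj (Nat.mod_lt _ (NeZero.pos p)) (ZMod.val_lt k) h
  rw [← ZMod.natCast_mod n p, h1, ZMod.natCast_zmod_val]

/-- **(G3)** The Kummer character of a `p`-th root `θ` of an element of `Kˣ`: it is additive on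
`G_K`, constant on the cosets `g * Stab(θ)`, and vanishes on `G_K` exactly at the stabiliser of
`θ`. -/
theorem exists_hom_of_kummer {p : ℕ} [Fact p.Prime] (K : IntermediateField ℚ Qb) (ζ : K)
    (hζ : IsPrimitiveRoot ζ p) (θ : Qb) (α : K) (hα : α ≠ 0) (hθ : θ ^ p = (α : Qb)) :
    ∃ c : Gq → ZMod p,
      (∀ σ ∈ K.fixingSubgroup, σ θ = (ζ : Qb) ^ (c σ).val * θ) ∧
      (∀ σ ∈ K.fixingSubgroup, ∀ τ ∈ K.fixingSubgroup, c (σ * τ) = c σ + c τ) ∧
      (∀ g s : Gq, s θ = θ → c (g * s) = c g) ∧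
      (∀ σ ∈ K.fixingSubgroup, (c σ = 0 ↔ σ θ = θ)) := by
  classical
  have hp : p.Prime := Fact.out
  have : NeZero p := ⟨hp.ne_zero⟩
  set z : Qb := (ζ : Qb) with hz
  have hzprim : IsPrimitiveRoot z p := hζ.map_of_injective (f := K.val) K.val.injective
  have hzp : z ^ p = 1 := hzprim.pow_eq_one
  have hfixz : ∀ τ ∈ K.fixingSubgroup, τ z = z := fun τ hτ =>
    (IntermediateField.mem_fixingSubgroup_iff K τ).mp hτ z ζ.2
  have hα' : (α : Qb) ≠ 0 := by simpa using hα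
  have hθ0 : θ ≠ 0 := by
    rintro rfl
    rw [zero_pow hp.ne_zero] at hθ
    exact hα' hθ.symm
  let f : Qb → ZMod p := fun w =>
    if h : ∃ k : ZMod p, w = z ^ k.val * θ then h.choose else 0
  have hf : ∀ w : Qb, (∃ k : ZMod p, w = z ^ k.val * θ) → w = z ^ (f w).val * θ := by
    intro w h
    simp only [f, dif_pos h]
    exact h.choose_spec
  have hex : ∀ σ ∈ K.fixingSubgroup, ∃ k : ZMod p, σ θ = z ^ k.val * θ := by
    intro σ hσ
    have hσα : σ (α : Qb) = α := (IntermediateField.mem_fixingSubgroup_iff K σ).mp hσ α α.2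
    have h1 : (σ θ / θ) ^ p = 1 := by
      rw [div_pow, ← map_pow, hθ, hσα, div_self hα']
    obtain ⟨i, hi, hi'⟩ := hzprim.eq_pow_of_pow_eq_one h1
    refine ⟨(i : ZMod p), ?_⟩
    rw [ZMod.val_natCast, Nat.mod_eq_of_lt hi, hi', div_mul_cancel₀ _ hθ0]
  have hspec : ∀ σ ∈ K.fixingSubgroup, σ θ = z ^ (f (σ θ)).val * θ := fun σ hσ =>
    hf _ (hex σ hσ)
  refine ⟨fun σ => f (σ θ), hspec, ?_, ?_, ?_⟩
  · intro σ hσ τ hτ
    show f ((σ * τ) θ) = f (σ θ) + f (τ θ)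
    have hσθ := hspec σ hσ
    have hτθ := hspec τ hτ
    have hστθ := hspec (σ * τ) (mul_mem hσ hτ)
    generalize f ((σ * τ) θ) = d at hστθ ⊢
    generalize f (σ θ) = a at hσθ ⊢
    generalize f (τ θ) = b at hτθ ⊢
    have h1 : (σ * τ) θ = z ^ (a.val + b.val) * θ := by
      rw [AlgEquiv.mul_apply, hτθ, map_mul, map_pow, hfixz σ hσ, hσθ, pow_add]
      ring
    rw [h1] at hστθ
    have h3 : z ^ (a.val + b.val) = z ^ d.val := mul_right_cancel₀ hθ0 hστθ
    have h4 := natCast_eq_of_pow_eq_pow_val hzprim _ _ h3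
    rw [← h4]
    push_cast
    rw [ZMod.natCast_zmod_val, ZMod.natCast_zmod_val]
  · intro g s hs
    show f ((g * s) θ) = f (g θ)
    rw [AlgEquiv.mul_apply, hs]
  · intro σ hσ
    show f (σ θ) = 0 ↔ σ θ = θ
    constructor
    · intro h0
      have h1 := hspec σ hσ
      rw [h0] at h1
      simpa using h1
    · intro h0
      have h1 := hspec σ hσ
      have h2 : z ^ 0 = z ^ (f (σ θ)).val := by
        have h3 : 1 * θ = z ^ (f (σ θ)).val * θ := by
          rw [one_mul]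
          conv_lhs => rw [← h0]
          exact h1
        rw [pow_zero]
        exact mul_right_cancel₀ hθ0 h3
      have h4 := natCast_eq_of_pow_eq_pow_val hzprim 0 _ h2
      rw [← h4]
      simp

end Fermat.Agent.CFT.Kummer
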