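import Mathlib
import Fermat.Agent.S14.Wiring.Unramified
import Fermat.Agent.S14.Wiring.ValRing
import Fermat.Agent.S14.Wiring.ValRingAlt
import Fermat.Agent.Lib.InertiaBridge
import Fermat.Agent.Lib.ValAut
import Fermat.Prelude.Def_GroupCohomology_ContinuousUnramified

/-!
# Kummer dictionary, ramification part (general number field, one valuation ring)

`Qb = AlgebraicClosure ℚ`, `K ≤ Qb` a number field, `θ ∈ Qb` with `θ ^ p = α ∈ K`.

* `exists_valuation_eq_one_of_inertia` (R1): if `A` is a valuation subring of `Qb` inducing the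
  prime `v` on `K` and every element of `I_A ∩ G_K` fixes `θ`, then `p ∣ ord_v α`
  (in the form `∃ x ≠ 0, v (α * x ^ p) = 1`).  This holds for every `v`, also above `p`.
* `inertia_fixes_of_valuation_eq_one` (R2): conversely, if `A` lies over a rational prime
  `q ≠ p` and `A.valuation (α * x ^ p) = 1` for some `x ∈ K`, then every element of
  `I_A ∩ G_K` fixes `θ`.
-/

set_option autoImplicit false

open scoped NumberField IntermediateField
open IsDedekindDomain Polynomial

namespace Fermat.Agent.CFT.Kummer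

local notation "Qb" => AlgebraicClosure ℚ
local notation "Gq" => (AlgebraicClosure ℚ ≃ₐ[ℚ] AlgebraicClosure ℚ)

open Fermat.Agent.S14.Wiring.Unramified in
attribute [local instance] isAlgebraic_Qb isAlgClosure_Qb

open Fermat.Agent.S14.Wiring.Unramified in
/-- **(R1)** Inertia at one valuation ring fixes a `p`-th root of `α` ⇒ `p ∣ ord_v α`. -/
theorem exists_valuation_eq_one_of_inertia {p : ℕ} [Fact p.Prime]
    (K : IntermediateField ℚ Qb) [NumberField K] (θ : Qb) (α : K) (hα : α ≠ 0)
    (hθ : θ ^ p = (α : Qb))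
    (v : HeightOneSpectrum (𝓞 K)) (A : ValuationSubring Qb)
    (hdict : ∀ x : K, (x : Qb) ∈ A ↔ v.valuation K x ≤ 1)
    (hfix : ∀ σ ∈ A.inertiaSubgroupIn ℚ, σ ∈ K.fixingSubgroup → σ θ = θ) :
    ∃ x : K, x ≠ 0 ∧ v.valuation K (α * x ^ p) = 1 := by
  have hp : p.Prime := Fact.out
  have : NeZero p := ⟨hp.ne_zero⟩
  have hvα : v.valuation K α ≠ 0 := by rw [Ne, map_eq_zero]; exact hα
  set m : ℤ := WithZero.log (v.valuation K α) with hm
  have hvm : v.valuation K α = WithZero.exp m := (WithZero.exp_log hvα).symm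
  obtain ⟨π, hπ⟩ := v.valuation_exists_uniformizer K
  have hπ0 : π ≠ 0 := by
    rintro rfl
    rw [map_zero] at hπ
    exact WithZero.exp_ne_zero hπ.symm
  by_cases hdiv : (p : ℤ) ∣ m
  · obtain ⟨k, hk⟩ := hdiv
    refine ⟨π ^ k, zpow_ne_zero _ hπ0, ?_⟩
    rw [map_mul, map_pow, map_zpow₀, hπ, hvm, hk, ← WithZero.exp_zsmul, ← WithZero.exp_nsmul,
      ← WithZero.exp_add, ← WithZero.exp_zero]
    congr 1
    simp only [smul_eq_mul, nsmul_eq_mul]
    ring
  · exfalso
    have hcop : IsCoprime (p : ℤ) m :=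
      (Nat.prime_iff_prime_int.mp hp).coprime_iff_not_dvd.mpr hdiv
    obtain ⟨a, b, hab⟩ := hcop
    -- the modified Kummer generator
    set α' : K := α ^ b * π ^ (-(a * p)) with hα'
    set θ' : Qb := θ ^ b * (π : Qb) ^ (-a) with hθ'
    have hθα : θ' ^ p = (α' : Qb) := by
      have e1 : ((α' : K) : Qb) = (α : Qb) ^ b * (π : Qb) ^ (-(a * p)) := by
        rw [hα']; push_cast; rfl
      rw [e1, hθ', mul_pow, ← zpow_natCast (θ ^ b) p, ← zpow_mul, mul_comm b, zpow_mul,
        zpow_natCast, hθ, ← zpow_natCast ((π : Qb) ^ (-a)) p, ← zpow_mul, neg_mul]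
    have hvα' : v.valuation K α' = WithZero.exp 1 := by
      rw [hα', map_mul, map_zpow₀, map_zpow₀, hvm, hπ, ← WithZero.exp_zsmul, ← WithZero.exp_zsmul,
        ← WithZero.exp_add]
      congr 1
      simp only [smul_eq_mul]
      linarith
    have hα'0 : α' ≠ 0 := by
      intro h
      rw [h, map_zero] at hvα'
      exact WithZero.exp_ne_zero hvα'.symm
    have hα'0' : (α' : Qb) ≠ 0 := by simpa using hα'0
    have hθ'0 : θ' ≠ 0 := by
      intro h
      rw [h, zero_pow hp.ne_zero] at hθα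
      exact hα'0' hθα.symm
    set ϖ := A.valuation (α' : Qb) with hϖ
    have hϖ0 : ϖ ≠ 0 := by rw [hϖ, Ne, map_eq_zero]; exact hα'0'
    have hϖ1 : ϖ ≠ 1 := by
      intro h
      have h1 : (α' : Qb) ∈ A := (A.valuation_le_one_iff _).mp h.le
      rw [hdict, hvα', ← WithZero.exp_zero, WithZero.exp_le_exp] at h1
      exact absurd h1 (by norm_num)
    have hwθ : A.valuation θ' ^ p = ϖ := by rw [← map_pow, hθα]
    -- valuations of elements of `K`
    have hcK : ∀ c : K, c ≠ 0 → ∃ n : ℤ, A.valuation (c : Qb) = ϖ ^ n := by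
      intro c hc
      have hvc : v.valuation K c ≠ 0 := by rw [Ne, map_eq_zero]; exact hc
      refine ⟨WithZero.log (v.valuation K c), ?_⟩
      set n := WithZero.log (v.valuation K c) with hn
      have h1 : v.valuation K (c * α' ^ (-n)) = 1 := by
        rw [map_mul, map_zpow₀, hvα', ← WithZero.exp_zsmul, ← WithZero.exp_log hvc, ← hn,
          ← WithZero.exp_add, ← WithZero.exp_zero]
        congr 1
        simp
      have h2 := val_eq_one_of hdict _ h1
      have e1 : ((c * α' ^ (-n) : K) : Qb) = (c : Qb) * (α' : Qb) ^ (-n) := by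
        push_cast; rfl
      rw [e1, map_mul, map_zpow₀, ← hϖ, zpow_neg] at h2
      exact eq_of_mul_inv_eq_one h2
    -- `θ'` does not lie in `K`
    have hθK : θ' ∉ K := by
      intro hmem
      have e1 : ((⟨θ', hmem⟩ : K) ^ p : K) = α' := by
        apply Subtype.ext
        push_cast
        exact hθα
      have hc0 : (⟨θ', hmem⟩ : K) ≠ 0 := by
        intro h
        rw [h, zero_pow hp.ne_zero] at e1
        exact hα'0 e1.symm
      have hvc : v.valuation K (⟨θ', hmem⟩ : K) ≠ 0 := by rw [Ne, map_eq_zero]; exact hc0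
      have h1 := congrArg (v.valuation K) e1
      rw [map_pow, hvα', ← WithZero.exp_log hvc, ← WithZero.exp_nsmul] at h1
      have h2 := WithZero.exp_injective h1
      have h3 : (p : ℤ) ∣ 1 := ⟨_, by rw [← h2, nsmul_eq_mul]⟩
      have h4 : p ∣ 1 := by exact_mod_cast h3
      exact hp.one_lt.ne' (Nat.dvd_one.mp h4)
    have hGal : IsGalois ℚ Qb := isGalois_Qb
    have hfixed := InfiniteGalois.fixedField_fixingSubgroup K
    have hθK' : θ' ∉ IntermediateField.fixedField K.fixingSubgroup := by rw [hfixed]; exact hθK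
    rw [IntermediateField.mem_fixedField_iff] at hθK'
    push Not at hθK'
    obtain ⟨τ, hτK, hτθ⟩ := hθK'
    have hτK' : ∀ c : K, τ (c : Qb) = (c : Qb) := fun c =>
      (IntermediateField.mem_fixingSubgroup_iff K τ).mp hτK c c.2
    -- `τ θ' = ξ θ'` with `ξ` a `p`-th root of unity
    set ξ : Qb := τ θ' / θ' with hξ
    have hτθ' : τ θ' = ξ * θ' := by rw [hξ, div_mul_cancel₀ _ hθ'0]
    have hξp : ξ ^ p = 1 := by
      rw [hξ, div_pow, ← map_pow, hθα, hτK', div_self hα'0']
    have hξle : A.valuation ξ ≤ 1 := by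
      by_contra hcon
      push Not at hcon
      have h1 : 1 < A.valuation ξ ^ p := one_lt_pow₀ hcon hp.ne_zero
      rw [← map_pow, hξp, map_one] at h1
      exact lt_irrefl _ h1
    -- the field `M = K(θ')`
    set M : IntermediateField ℚ Qb := (K⟮θ'⟯).restrictScalars ℚ with hMdef
    have hKM : ∀ c : K, (c : Qb) ∈ M := fun c => (K⟮θ'⟯).algebraMap_mem c
    have hθM : θ' ∈ M := IntermediateField.mem_adjoin_simple_self K θ'
    have hrep : ∀ x ∈ M, ∃ c : ℕ → K, x = ∑ i ∈ Finset.range p, (c i : Qb) * θ' ^ i :=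
      fun x hx => exists_kummer_expansion K p hp.ne_zero θ' α' hθα x hx
    have hτM : ∀ x ∈ M, IsIntegral ℤ x → τ x - x ∈ A.nonunits := by
      intro x hx hxint
      obtain ⟨c, rfl⟩ := hrep x hx
      rw [A.mem_nonunits_iff]
      have hxA : A.valuation (∑ i ∈ Finset.range p, (c i : Qb) * θ' ^ i) ≤ 1 :=
        (A.valuation_le_one_iff _).mpr (mem_of_isIntegral_int A hxint)
      exact kummer_map_sub_lt A.valuation p θ' ϖ hϖ0 hϖ1 hwθ (fun i => (c i : Qb))
        (fun i hi => hcK (c i) (by simpa using hi)) hxA (τ : Qb →+* Qb) (fun i => hτK' (c i))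
        ξ hξle hτθ'
    -- the residue characteristic
    have : NeZero v.asIdeal := ⟨v.ne_bot⟩
    set ℓ := Ideal.absNorm (Ideal.under ℤ v.asIdeal) with hℓdef
    have hℓ : ℓ.Prime := Nat.absNorm_under_prime v.asIdeal
    have hℓv : ((ℓ : ℕ) : 𝓞 K) ∈ v.asIdeal := by
      have h1 := Ideal.absNorm_mem (Ideal.under ℤ v.asIdeal)
      rw [Ideal.mem_comap] at h1
      simpa using h1
    have hAℓ : A.LiesOverPrime ℓ := by
      show (ℓ : Qb) ∈ A.nonunits
      rw [A.mem_nonunits_iff]
      have h1 : v.valuation K (((ℓ : ℕ) : 𝓞 K) : K) < 1 := (v.valuation_lt_one_iff_mem _).mpr hℓv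
      have h2 := val_lt_one_of hdict _ h1
      simpa using h2
    obtain ⟨σ, hσI, hσM⟩ := Fermat.Agent.Lib.DecompLift.exists_inertia_lift M A hℓ hAℓ τ hτM
    have hσK : σ ∈ K.fixingSubgroup := by
      rw [IntermediateField.mem_fixingSubgroup_iff]
      intro c hc
      rw [hσM c (hKM ⟨c, hc⟩)]
      exact hτK' ⟨c, hc⟩
    have h1 : σ θ = θ := hfix σ hσI hσK
    have h2 : σ θ' = τ θ' := hσM θ' hθM
    have h3 : σ (π : Qb) = (π : Qb) := by rw [hσM _ (hKM π)]; exact hτK' π
    have h4 : σ θ' = θ' := by rw [hθ', map_mul, map_zpow₀, map_zpow₀, h1, h3]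
    exact hτθ (h2 ▸ h4)

/-- A `p`-th root of unity `ξ ≠ 1` with `ξ ≡ 1` modulo the maximal ideal of `A` forces
`p` into the maximal ideal. -/
theorem valuation_natCast_lt_one_of_root_of_unity {L : Type*} [Field L] (A : ValuationSubring L)
    {p : ℕ} (ξ : L) (hξp : ξ ^ p = 1) (hξ1 : ξ ≠ 1) (h : A.valuation (ξ - 1) < 1) :
    A.valuation (p : L) < 1 := by
  have hvξ : A.valuation ξ ≤ 1 := by
    have : ξ = (ξ - 1) + 1 := by ring
    rw [this]
    exact (A.valuation.map_add_le h.le (by rw [map_one]))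
  have hsum : ∑ i ∈ Finset.range p, ξ ^ i = 0 := by
    have h1 := geom_sum_mul ξ p
    rw [hξp, sub_self] at h1
    rcases mul_eq_zero.mp h1 with h2 | h2
    · exact h2
    · exact absurd (sub_eq_zero.mp h2) hξ1
  have hterm : ∀ i : ℕ, A.valuation (ξ ^ i - 1) < 1 := by
    intro i
    rw [← geom_sum_mul ξ i, map_mul]
    have h1 : A.valuation (∑ j ∈ Finset.range i, ξ ^ j) ≤ 1 := by
      refine A.valuation.map_sum_le fun j _ => ?_
      rw [map_pow]
      exact pow_le_one₀ zero_le hvξ
    calc A.valuation (∑ j ∈ Finset.range i, ξ ^ j) * A.valuation (ξ - 1)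
        ≤ 1 * A.valuation (ξ - 1) := by gcongr
      _ < 1 := by rw [one_mul]; exact h
  have hp : (p : L) = -∑ i ∈ Finset.range p, (ξ ^ i - 1) := by
    rw [Finset.sum_sub_distrib, hsum]
    simp
  rw [hp, Valuation.map_neg]
  exact A.valuation.map_sum_lt one_ne_zero fun i _ => hterm i

/-- **(R2)** If `A` lies over a rational prime `q ≠ p` and `α * x ^ p` is a unit of `A` for some
`x ∈ K`, then every element of `I_A ∩ G_K` fixes every `p`-th root `θ` of `α`. -/
theorem inertia_fixes_of_valuation_eq_one {p : ℕ} [Fact p.Prime]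
    (K : IntermediateField ℚ Qb) (θ : Qb) (α : K) (hθ : θ ^ p = (α : Qb))
    (A : ValuationSubring Qb) (q : ℕ) (hqp : Nat.Coprime q p) (hA : A.LiesOverPrime q)
    (x : K) (hx : A.valuation ((α : Qb) * (x : Qb) ^ p) = 1)
    (σ : Gq) (hσI : σ ∈ A.inertiaSubgroupIn ℚ) (hσK : σ ∈ K.fixingSubgroup) : σ θ = θ := by
  have hp : p.Prime := Fact.out
  set β : Qb := θ * x with hβ
  have hβp : β ^ p = (α : Qb) * (x : Qb) ^ p := by rw [hβ, mul_pow, hθ]
  have hvβ : A.valuation β = 1 := by
    have h1 : A.valuation β ^ p = 1 := by rw [← map_pow, hβp, hx]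
    rcases lt_trichotomy (A.valuation β) 1 with h | h | h
    · exact absurd h1 (pow_lt_one₀ zero_le h hp.ne_zero).ne
    · exact h
    · exact absurd h1 (one_lt_pow₀ h hp.ne_zero).ne'
  have hβ0 : β ≠ 0 := by
    intro h
    rw [h, map_zero] at hvβ
    exact zero_ne_one hvβ
  have hx0 : (x : Qb) ≠ 0 := by
    intro h
    rw [hβ, h, mul_zero] at hβ0
    exact hβ0 rfl
  have hβA : β ∈ A := (A.valuation_le_one_iff _).mp hvβ.le
  have hσα : σ (α : Qb) = α := (IntermediateField.mem_fixingSubgroup_iff K σ).mp hσK α α.2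
  have hσx : σ (x : Qb) = x := (IntermediateField.mem_fixingSubgroup_iff K σ).mp hσK x x.2
  set ξ : Qb := σ β / β with hξ
  have hσβ : σ β = ξ * β := by rw [hξ, div_mul_cancel₀ _ hβ0]
  have hξp : ξ ^ p = 1 := by
    rw [hξ, div_pow, ← map_pow, hβp, map_mul, map_pow, hσα, hσx, div_self]
    rw [← hβp]
    exact pow_ne_zero _ hβ0
  have h1 : A.valuation (σ β - β) < 1 :=
    A.mem_nonunits_iff.mp
      (Fermat.Agent.Lib.InertiaBridge.sub_mem_of_mem_inertiaSubgroupIn A σ hσI β hβA)
  have h2 : A.valuation (ξ - 1) < 1 := by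
    have h3 : σ β - β = (ξ - 1) * β := by rw [hσβ]; ring
    rw [h3, map_mul, hvβ, mul_one] at h1
    exact h1
  have hξ1 : ξ = 1 := by
    by_contra hne
    have hvp : A.valuation (p : Qb) < 1 := valuation_natCast_lt_one_of_root_of_unity A ξ hξp hne h2
    have hvq : A.valuation (q : Qb) < 1 := A.mem_nonunits_iff.mp hA
    have hcop : IsCoprime (q : ℤ) (p : ℤ) := Nat.isCoprime_iff_coprime.mpr hqp
    obtain ⟨a, b, hab⟩ := hcop
    have hone : (1 : Qb) = (a : Qb) * (q : Qb) + (b : Qb) * (p : Qb) := by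
      have := congrArg (fun z : ℤ => (z : Qb)) hab
      simp only [Int.cast_add, Int.cast_mul, Int.cast_natCast, Int.cast_one] at this
      exact this.symm
    have hint : ∀ z : ℤ, A.valuation (z : Qb) ≤ 1 := fun z =>
      (A.valuation_le_one_iff _).mpr (intCast_mem A z)
    have hlt : A.valuation (1 : Qb) < 1 := by
      rw [hone]
      refine A.valuation.map_add_lt ?_ ?_
      · rw [map_mul]
        calc A.valuation (a : Qb) * A.valuation (q : Qb) ≤ 1 * A.valuation (q : Qb) := by
              gcongr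
              exact hint a
          _ < 1 := by rw [one_mul]; exact hvq
      · rw [map_mul]
        calc A.valuation (b : Qb) * A.valuation (p : Qb) ≤ 1 * A.valuation (p : Qb) := by
              gcongr
              exact hint b
          _ < 1 := by rw [one_mul]; exact hvp
    rw [map_one] at hlt
    exact lt_irrefl _ hlt
  have hfin : σ β = β := by rw [hσβ, hξ1, one_mul]
  rw [hβ, map_mul, hσx] at hfin
  exact mul_right_cancel₀ hx0 hfin

/-! ### Field form -/

/-- An automorphism fixing `K` pointwise and `θ` fixes `K(θ)` pointwise. -/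
theorem mem_fixingSubgroup_adjoin_simple (K : IntermediateField ℚ Qb) (θ : Qb) (σ : Gq)
    (hσK : σ ∈ K.fixingSubgroup) (hσθ : σ θ = θ) :
    σ ∈ ((K⟮θ⟯).restrictScalars ℚ).fixingSubgroup := by
  have hK : ∀ c : K, σ (c : Qb) = c := fun c =>
    (IntermediateField.mem_fixingSubgroup_iff K σ).mp hσK c c.2
  rw [IntermediateField.mem_fixingSubgroup_iff]
  intro y hy
  have hy' : y ∈ K⟮θ⟯ := hy
  induction hy' using IntermediateField.adjoin_induction with
  | mem z hz =>
    rw [Set.mem_singleton_iff] at hz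
    rw [hz]; exact hσθ
  | algebraMap z => exact hK z
  | add a b _ _ ha hb => rw [map_add, ha (by assumption), hb (by assumption)]
  | inv a _ ha => rw [map_inv₀, ha (by assumption)]
  | mul a b _ _ ha hb => rw [map_mul, ha (by assumption), hb (by assumption)]

theorem fixingSubgroup_adjoin_simple_le (K : IntermediateField ℚ Qb) (θ : Qb) :
    ((K⟮θ⟯).restrictScalars ℚ).fixingSubgroup ≤ K.fixingSubgroup := by
  refine IntermediateField.fixingSubgroup_antitone ?_
  intro c hc
  exact (K⟮θ⟯).algebraMap_mem (⟨c, hc⟩ : K)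

theorem apply_eq_of_mem_fixingSubgroup_adjoin_simple (K : IntermediateField ℚ Qb) (θ : Qb)
    (σ : Gq) (hσ : σ ∈ ((K⟮θ⟯).restrictScalars ℚ).fixingSubgroup) : σ θ = θ :=
  (IntermediateField.mem_fixingSubgroup_iff _ σ).mp hσ θ
    (IntermediateField.mem_adjoin_simple_self K θ)

/-- `K(θ)` is finite over `ℚ` when `K` is. -/
theorem finiteDimensional_adjoin_simple (K : IntermediateField ℚ Qb) [FiniteDimensional ℚ K]
    (θ : Qb) : FiniteDimensional ℚ ((K⟮θ⟯).restrictScalars ℚ) := by
  have h : (K⟮θ⟯).restrictScalars ℚ = K ⊔ ℚ⟮θ⟯ :=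
    IntermediateField.restrictScalars_adjoin_eq_sup ℚ K ({θ} : Set Qb)
  rw [h]
  have hint : IsIntegral ℚ θ := Algebra.IsIntegral.isIntegral θ
  haveI : FiniteDimensional ℚ ℚ⟮θ⟯ := IntermediateField.adjoin.finiteDimensional hint
  exact IntermediateField.finiteDimensional_sup K ℚ⟮θ⟯

/-- **(R3)** Field form of the ramification dictionary: for `K` unramified outside `S ∋ p`,
`K(θ)` (`θ ^ p = α ∈ Kˣ`) is unramified outside `S` iff `p ∣ ord_v α` for every prime `v` of
`K` containing no prime number of `S`. -/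
theorem isUnramifiedOutside_adjoin_simple_iff {p : ℕ} [Fact p.Prime] (S : Finset Nat.Primes)
    (hpS : ExtCitation.pPrime p ∈ S)
    (K : IntermediateField ℚ Qb) [NumberField K] (hK : K.IsUnramifiedOutside S)
    (θ : Qb) (α : K) (hα : α ≠ 0) (hθ : θ ^ p = (α : Qb)) :
    ((K⟮θ⟯).restrictScalars ℚ).IsUnramifiedOutside S ↔
      ∀ v : HeightOneSpectrum (𝓞 K), (∀ q ∈ S, (((q : Nat.Primes) : ℕ) : 𝓞 K) ∉ v.asIdeal) →
        ∃ x : K, x ≠ 0 ∧ v.valuation K (α * x ^ p) = 1 := by
  have hp : p.Prime := Fact.out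
  constructor
  · intro hur v hv
    obtain ⟨ℓ, A, hℓ, hℓv, hAℓ, -, hdict, -, -⟩ :=
      Fermat.Agent.S14.Wiring.ValRing.exists_valuationSubring_full K v
    have hℓS : (⟨ℓ, hℓ⟩ : Nat.Primes) ∉ S := fun h => hv _ h hℓv
    refine exists_valuation_eq_one_of_inertia K θ α hα hθ v A hdict fun σ hσI _ => ?_
    exact apply_eq_of_mem_fixingSubgroup_adjoin_simple K θ σ (hur.2 ⟨ℓ, hℓ⟩ hℓS A hAℓ hσI)
  · intro h
    haveI := hK.1
    refine ⟨finiteDimensional_adjoin_simple K θ, fun q hq A hA σ hσI => ?_⟩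
    have hσK : σ ∈ K.fixingSubgroup := hK.2 q hq A hA hσI
    refine mem_fixingSubgroup_adjoin_simple K θ σ hσK ?_
    have hqp : Nat.Coprime (q : ℕ) p := by
      rw [Nat.coprime_primes q.2 hp]
      intro hqp
      apply hq
      have : q = ExtCitation.pPrime p := Subtype.ext hqp
      rw [this]
      exact hpS
    set v : HeightOneSpectrum (𝓞 K) :=
      Fermat.Agent.S14.Wiring.ValRing.placeUnder K A q.2 hA with hv
    have hvA : v.asIdeal = Fermat.Agent.S14.Wiring.ValRing.primeUnder K A := rfl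
    have hvS : ∀ q' ∈ S, (((q' : Nat.Primes) : ℕ) : 𝓞 K) ∉ v.asIdeal := by
      intro q' hq' hmem
      have hA' : A.LiesOverPrime (q' : ℕ) :=
        Fermat.Agent.S14.Wiring.ValRing.liesOverPrime_of_natCast_mem hvA hmem
      have hne : (q : ℕ) ≠ (q' : ℕ) := by
        intro hqq
        have : q = q' := Subtype.ext hqq
        exact hq (this ▸ hq')
      have hcop : IsCoprime ((q : ℕ) : ℤ) ((q' : ℕ) : ℤ) :=
        Nat.isCoprime_iff_coprime.mpr ((Nat.coprime_primes q.2 q'.2).mpr hne)
      obtain ⟨a, b, hab⟩ := hcop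
      have hone : (1 : Qb) = (a : Qb) * ((q : ℕ) : Qb) + (b : Qb) * ((q' : ℕ) : Qb) := by
        have := congrArg (fun z : ℤ => (z : Qb)) hab
        simp only [Int.cast_add, Int.cast_mul, Int.cast_natCast, Int.cast_one] at this
        exact this.symm
      have hint : ∀ z : ℤ, A.valuation (z : Qb) ≤ 1 := fun z =>
        (A.valuation_le_one_iff _).mpr (intCast_mem A z)
      have hvq : A.valuation ((q : ℕ) : Qb) < 1 := A.mem_nonunits_iff.mp hA
      have hvq' : A.valuation ((q' : ℕ) : Qb) < 1 := A.mem_nonunits_iff.mp hA'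
      have hlt : A.valuation (1 : Qb) < 1 := by
        rw [hone]
        refine A.valuation.map_add_lt ?_ ?_
        · rw [map_mul]
          calc A.valuation (a : Qb) * A.valuation ((q : ℕ) : Qb)
              ≤ 1 * A.valuation ((q : ℕ) : Qb) := by
                gcongr
                exact hint a
            _ < 1 := by rw [one_mul]; exact hvq
        · rw [map_mul]
          calc A.valuation (b : Qb) * A.valuation ((q' : ℕ) : Qb)
              ≤ 1 * A.valuation ((q' : ℕ) : Qb) := by
                gcongr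
                exact hint b
            _ < 1 := by rw [one_mul]; exact hvq'
      rw [map_one] at hlt
      exact lt_irrefl _ hlt
    obtain ⟨x, -, hx⟩ := h v hvS
    have hx' : A.valuation (((α * x ^ p : K) : K) : Qb) = 1 :=
      (Fermat.Agent.S14.Wiring.ValRing.valuation_eq_one_iff hvA _).mp hx
    have hx'' : A.valuation ((α : Qb) * (x : Qb) ^ p) = 1 := by
      rw [← hx']
      rfl
    exact inertia_fixes_of_valuation_eq_one K θ α hθ A q hqp hA x hx'' σ hσI hσK

end Fermat.Agent.CFT.Kummer
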