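import Mathlib
import Fermat.Agent.S14.Base
import Fermat.Agent.S14.Wiring.SplitCore
import Fermat.Agent.S14.Wiring.ValRing
import Fermat.Agent.Lib.DecompLift
import Fermat.Agent.Lib.ValAut

/-!
# Kummer dictionary, local part (general number field, one valuation ring)

`Qb = AlgebraicClosure ℚ`, `K ≤ Qb` a number field containing a primitive `p`-th root of unity
`ζ`, `θ ∈ Qb` with `θ ^ p = α ∈ Kˣ`, `A` a valuation subring of `Qb` over the prime number `ℓ`
(any `ℓ`, also `ℓ = p`), `v` the prime of `K` below `A`, `D_A` the decomposition group of `A`.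

* `exists_local_pow_of_decomposition` (L1): if every element of `D_A ∩ G_K` fixes `θ`, then for
  every `n > 0` there is `x ∈ Kˣ` with `v (α x ^ p) = 1` and `v (α x ^ p - 1) ≤ exp (-n)`
  (`α` is a `p`-th power in the completion `K_v`).
* `decomposition_fixes_of_valuation_lt` (L2): conversely, if
  `A.valuation (α x ^ p - 1) < A.valuation (ζ - 1) ^ p` for some `x ∈ K`, then every element of
  `D_A ∩ G_K` fixes `θ`.
* `decomposition_fixes_iff_local_pow` (L3): the equivalence, in terms of `v`.
-/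

set_option autoImplicit false

open scoped NumberField Pointwise
open IsDedekindDomain Polynomial

namespace Fermat.Agent.CFT.Kummer

local notation "Qb" => AlgebraicClosure ℚ
local notation "Gq" => (AlgebraicClosure ℚ ≃ₐ[ℚ] AlgebraicClosure ℚ)

open Fermat.Agent.S14 Fermat.Agent.S14.Wiring in
/-- **(L1)** Decomposition at one valuation ring fixes a `p`-th root of `α` ⇒ `α` is locally a
`p`-th power at the prime of `K` below it, to any precision. -/
theorem exists_local_pow_of_decomposition {p : ℕ} [Fact p.Prime] (K : IntermediateField ℚ Qb)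
    [NumberField K] (ζ : K) (hζ : IsPrimitiveRoot ζ p) (θ : Qb) (α : K) (hα : α ≠ 0)
    (hθ : θ ^ p = ((α : K) : Qb))
    (A : ValuationSubring Qb) {ℓ : ℕ} (hℓ : ℓ.Prime) (hA : A.LiesOverPrime ℓ)
    (v : HeightOneSpectrum (𝓞 K))
    (hAv : ∀ x : 𝓞 K, x ∈ v.asIdeal → (((x : K) : Qb)) ∈ A.nonunits)
    (hfix : ∀ σ ∈ A.decompositionSubgroup ℚ, σ ∈ K.fixingSubgroup → σ θ = θ)
    (n : ℕ) (hn : 0 < n) :
    ∃ x : K, x ≠ 0 ∧ v.valuation K (α * x ^ p) = 1 ∧
      v.valuation K (α * x ^ p - 1) ≤ WithZero.exp (-(n : ℤ)) := by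
  classical
  have hp : p.Prime := Fact.out
  have hpK : ((p : ℕ) : K) ≠ 0 := Nat.cast_ne_zero.mpr hp.ne_zero
  -- the splitting field of `X ^ p - α`
  let f : K[X] := X ^ p - C α
  have hf0 : f ≠ 0 := X_pow_sub_C_ne_zero hp.pos α
  let L : IntermediateField K Qb := IntermediateField.adjoin K (f.rootSet Qb)
  have hsplit : (f.map (algebraMap K Qb)).Splits := IsAlgClosed.splits _
  have : f.IsSplittingField K L := IntermediateField.adjoin_rootSet_isSplittingField hsplit
  have : FiniteDimensional K L := Polynomial.IsSplittingField.finiteDimensional L f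
  have : IsGalois K L :=
    IsGalois.of_separable_splitting_field (p := f) (separable_X_pow_sub_C α hpK hα)
  have : NumberField L := NumberField.of_module_finite K L
  have hθroot : θ ∈ f.rootSet Qb := by
    rw [mem_rootSet]
    refine ⟨hf0, ?_⟩
    simp only [f, map_sub, map_pow, aeval_X, aeval_C]
    rw [hθ]
    exact sub_self _
  have hθmem : θ ∈ L := IntermediateField.subset_adjoin K _ hθroot
  let θL : L := ⟨θ, hθmem⟩
  have hθL : θL ^ p = algebraMap K L α := Subtype.ext hθ
  -- the prime of `𝓞 L` below `A`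
  let ι₀ : 𝓞 L →+* Qb := (algebraMap L Qb).comp (algebraMap (𝓞 L) L)
  have hι₀int : ∀ x : 𝓞 L, IsIntegral ℤ (ι₀ x) := fun x =>
    (NumberField.RingOfIntegers.isIntegral_coe x).map
      ((algebraMap L Qb).toIntAlgHom)
  let ι : 𝓞 L →+* A := ι₀.codRestrict A.toSubring
    (fun x => Lib.DecompLift.mem_of_isIntegral A (hι₀int x))
  let P : Ideal (𝓞 L) := (IsLocalRing.maximalIdeal A).comap ι
  have hPprime : P.IsPrime := Ideal.comap_isPrime ι _
  have hPmem : ∀ x : 𝓞 L, x ∈ P ↔ ι₀ x ∈ A.nonunits := by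
    intro x
    change ι x ∈ IsLocalRing.maximalIdeal A ↔ _
    rw [← ValuationSubring.coe_mem_nonunits_iff]
    rfl
  have hPne : P ≠ ⊥ := by
    intro h
    have h1 : ((ℓ : ℕ) : 𝓞 L) ∈ P := by
      rw [hPmem]
      have : ι₀ ((ℓ : ℕ) : 𝓞 L) = ((ℓ : ℕ) : Qb) := map_natCast ι₀ ℓ
      rw [this]
      exact hA
    rw [h, Ideal.mem_bot] at h1
    exact hℓ.ne_zero (by exact_mod_cast h1)
  let w : HeightOneSpectrum (𝓞 L) := ⟨P, hPprime, hPne⟩
  have hover : w.asIdeal.LiesOver v.asIdeal := by
    refine ⟨?_⟩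
    have hle : v.asIdeal ≤ Ideal.under (𝓞 K) P := by
      intro x hx
      rw [Ideal.mem_comap, hPmem]
      exact hAv x hx
    have hne : Ideal.under (𝓞 K) P ≠ ⊤ := by
      intro h
      have h1 : (1 : 𝓞 K) ∈ Ideal.under (𝓞 K) P := h ▸ Submodule.mem_top
      rw [Ideal.mem_comap, map_one] at h1
      exact hPprime.ne_top ((Ideal.eq_top_iff_one _).mpr h1)
    exact (Ideal.IsMaximal.eq_of_le inferInstance hne hle)
  -- the decomposition group of `w` in `Gal(L/K)` is trivial
  have hζQ : IsPrimitiveRoot ((ζ : K) : Qb) p := hζ.map_of_injective (algebraMap K Qb).injective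
  have hD : ∀ g : L ≃ₐ[K] L, g • w.asIdeal = w.asIdeal → g = 1 := by
    intro g hg
    have halgQ : Algebra.IsAlgebraic ℚ Qb := Base.isAlgebraic
    have halg : Algebra.IsAlgebraic K Qb := Algebra.IsAlgebraic.tower_top (K := ℚ) K
    have hcl : IsAlgClosure K Qb := ⟨inferInstance, halg⟩
    have hnormal : Normal K Qb := IsAlgClosure.normal K Qb
    let τK : Qb ≃ₐ[K] Qb := g.liftNormal Qb
    let τ : Gq := τK.restrictScalars ℚ
    have hτL : ∀ x : L, τ (x : Qb) = ((g x : L) : Qb) := fun x => g.liftNormal_commutes Qb x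
    let M : IntermediateField ℚ Qb := L.restrictScalars ℚ
    have hτ : ∀ x ∈ M, IsIntegral ℤ x → (x ∈ A.nonunits ↔ τ x ∈ A.nonunits) := by
      intro x hx hxi
      let xL : L := ⟨x, hx⟩
      have hxLi : IsIntegral ℤ xL :=
        (isIntegral_algebraMap_iff (algebraMap L Qb).injective).mp hxi
      let xO : 𝓞 L := IsIntegralClosure.mk' (𝓞 L) xL hxLi
      have hxO : algebraMap (𝓞 L) L xO = xL := IsIntegralClosure.algebraMap_mk' (𝓞 L) xL hxLi
      have h1 : xO ∈ P ↔ g • xO ∈ P := by
        have h2 : g • xO ∈ g • P ↔ xO ∈ P := Ideal.smul_mem_pointwise_smul_iff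
        have hg' : g • P = P := hg
        rw [hg'] at h2
        exact h2.symm
      rw [hPmem, hPmem] at h1
      have e1 : ι₀ xO = x := by
        change algebraMap L Qb (algebraMap (𝓞 L) L xO) = x
        rw [hxO]
        rfl
      have e2 : ι₀ (g • xO) = τ x := by
        change algebraMap L Qb (g (algebraMap (𝓞 L) L xO)) = τ x
        rw [hxO]
        exact (hτL xL).symm
      rw [e1, e2] at h1
      exact h1
    obtain ⟨σ, hσD, hσ⟩ := Lib.DecompLift.exists_decomp_lift M A hℓ hA τ hτ
    have hKM : ∀ x : K, ((x : K) : Qb) ∈ M := fun x => L.algebraMap_mem x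
    have hσK : ∀ x : K, σ (x : Qb) = x := by
      intro x
      rw [hσ _ (hKM x)]
      exact τK.commutes x
    have hσK' : σ ∈ K.fixingSubgroup :=
      (IntermediateField.mem_fixingSubgroup_iff K σ).mpr fun x hx => hσK ⟨x, hx⟩
    have hσθ := hfix σ hσD hσK'
    have hτθ : τK θ = θ := by
      have := hσ θ hθmem
      rw [hσθ] at this
      exact this.symm
    -- `τK` fixes every root of `f`, hence all of `L`
    have hroot : ∀ y ∈ f.rootSet Qb, τK y = y := by
      intro y hy
      rw [mem_rootSet] at hy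
      have hy' : y ^ p = ((α : K) : Qb) := by
        have := hy.2
        simp only [f, map_sub, map_pow, aeval_X, aeval_C] at this
        exact sub_eq_zero.mp this
      have hθ0 : θ ≠ 0 := by
        rintro rfl
        rw [zero_pow hp.ne_zero] at hθ
        exact hα (by exact_mod_cast hθ.symm)
      have h1 : (y / θ) ^ p = 1 := by
        rw [div_pow, hy', hθ, div_self]
        rw [← hθ]
        exact pow_ne_zero _ hθ0
      have : NeZero p := ⟨hp.ne_zero⟩
      obtain ⟨i, -, hi⟩ := hζQ.eq_pow_of_pow_eq_one h1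
      have hy2 : y = ((ζ : K) : Qb) ^ i * θ := by
        rw [hi]
        field_simp
      rw [hy2, map_mul, map_pow, hτθ]
      congr 2
      exact τK.commutes ζ
    have hfixL : ∀ x ∈ L, τK x = x := by
      intro x hx
      induction hx using IntermediateField.adjoin_induction with
      | mem y hy => exact hroot y hy
      | algebraMap y => exact τK.commutes y
      | add y z _ _ hy hz => rw [map_add, hy, hz]
      | inv y _ hy => rw [map_inv₀, hy]
      | mul y z _ _ hy hz => rw [map_mul, hy, hz]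
    ext x
    change ((g x : L) : Qb) = (x : Qb)
    have h1 := hτL x
    have h2 : τ (x : Qb) = (x : Qb) := hfixL x x.2
    rw [h2] at h1
    exact h1.symm
  exact SplitCore.localPow_core v w hD p n hp.pos hn α hα θL hθL

/-- Two `p`-th roots of unity `≠ 1` (`p` prime) are powers of each other, so `ξ - 1` and `ξ' - 1`
have the same valuation. -/
theorem valuation_sub_one_le_of_roots_of_unity {L : Type*} [Field L] (A : ValuationSubring L)
    {p : ℕ} (hp : p.Prime) (ξ ξ' : L) (hξp : ξ ^ p = 1) (hξ1 : ξ ≠ 1) (hξ'p : ξ' ^ p = 1) :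
    A.valuation (ξ' - 1) ≤ A.valuation (ξ - 1) := by
  have : NeZero p := ⟨hp.ne_zero⟩
  have hprim : IsPrimitiveRoot ξ p := by
    haveI : Fact p.Prime := ⟨hp⟩
    have h := IsPrimitiveRoot.orderOf ξ
    rwa [orderOf_eq_prime hξp hξ1] at h
  obtain ⟨i, -, hi⟩ := hprim.eq_pow_of_pow_eq_one hξ'p
  have hvξ : A.valuation ξ ≤ 1 := by
    by_contra hcon
    push Not at hcon
    have h1 : 1 < A.valuation ξ ^ p := one_lt_pow₀ hcon hp.ne_zero
    rw [← map_pow, hξp, map_one] at h1
    exact lt_irrefl _ h1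
  rw [← hi, ← geom_sum_mul ξ i, map_mul]
  have h1 : A.valuation (∑ j ∈ Finset.range i, ξ ^ j) ≤ 1 := by
    refine A.valuation.map_sum_le fun j _ => ?_
    rw [map_pow]
    exact pow_le_one₀ zero_le hvξ
  calc A.valuation (∑ j ∈ Finset.range i, ξ ^ j) * A.valuation (ξ - 1)
      ≤ 1 * A.valuation (ξ - 1) := by gcongr
    _ = A.valuation (ξ - 1) := one_mul _

/-- **(L2)** If `α x ^ p` is sufficiently close to `1` at `A` for some `x ∈ K`, every element of
`D_A ∩ G_K` fixes every `p`-th root `θ` of `α`. -/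
theorem decomposition_fixes_of_valuation_lt {p : ℕ} [Fact p.Prime] (K : IntermediateField ℚ Qb)
    (ζ : K) (hζ : IsPrimitiveRoot ζ p) (θ : Qb) (α : K) (hθ : θ ^ p = ((α : K) : Qb))
    (A : ValuationSubring Qb) (x : K)
    (hx : A.valuation ((α : Qb) * (x : Qb) ^ p - 1) < A.valuation ((ζ : Qb) - 1) ^ p)
    (σ : Gq) (hσD : σ ∈ A.decompositionSubgroup ℚ) (hσK : σ ∈ K.fixingSubgroup) : σ θ = θ := by
  classical
  have hp : p.Prime := Fact.out
  have : NeZero p := ⟨hp.ne_zero⟩
  have halgQ : Algebra.IsAlgebraic ℚ Qb := Fermat.Agent.S14.Base.isAlgebraic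
  set z : Qb := (ζ : Qb) with hz
  have hzprim : IsPrimitiveRoot z p := hζ.map_of_injective (f := K.val) K.val.injective
  have hzp : z ^ p = 1 := hzprim.pow_eq_one
  have hz1 : z ≠ 1 := hzprim.ne_one hp.one_lt
  set lam := A.valuation (z - 1) with hlam
  have hσfix : ∀ c : K, σ (c : Qb) = c := fun c =>
    (IntermediateField.mem_fixingSubgroup_iff K σ).mp hσK c c.2
  have hσz : σ z = z := hσfix ζ
  have hval : ∀ y : Qb, A.valuation (σ y) = A.valuation y := fun y =>
    Fermat.Agent.Lib.ValAut.valuation_map_eq_of_mem_decomposition ℚ A σ hσD y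
  set β : Qb := θ * x with hβ
  have hβp : β ^ p = (α : Qb) * (x : Qb) ^ p := by rw [hβ, mul_pow, hθ]
  -- `x ≠ 0`
  have hx0 : (x : Qb) ≠ 0 := by
    intro h
    rw [h, zero_pow hp.ne_zero, mul_zero, zero_sub, Valuation.map_neg, map_one] at hx
    have hle : lam ≤ 1 := by
      have h1 := valuation_sub_one_le_of_roots_of_unity A hp z z hzp hz1 hzp
      by_contra hcon
      push Not at hcon
      -- `z = (z - 1) + 1`, so `val z ≤ max lam 1 = lam`; but `val z = 1` and
      -- `z - 1 = z - 1` has valuation `lam > 1`, impossible since `val z = val 1 = 1`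
      have hvz : A.valuation z = 1 := by
        have h2 : A.valuation z ^ p = 1 := by rw [← map_pow, hzp, map_one]
        rcases lt_trichotomy (A.valuation z) 1 with h | h | h
        · exact absurd h2 (pow_lt_one₀ zero_le h hp.ne_zero).ne
        · exact h
        · exact absurd h2 (one_lt_pow₀ h hp.ne_zero).ne'
      have h3 : A.valuation (z - 1) ≤ 1 := by
        refine (A.valuation.map_sub_le ?_ ?_)
        · exact hvz.le
        · rw [map_one]
      exact absurd h3 (not_le.mpr hcon)
    exact absurd hx (not_lt.mpr (pow_le_one₀ zero_le hle))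
  have hβ0 : β ≠ 0 := by
    rw [hβ]
    refine mul_ne_zero ?_ hx0
    rintro rfl
    rw [zero_pow hp.ne_zero] at hθ
    rw [← hθ, zero_mul, zero_sub, Valuation.map_neg, map_one] at hx
    -- same contradiction as above: `1 < lam ^ p` is impossible
    have hvz : A.valuation z = 1 := by
      have h2 : A.valuation z ^ p = 1 := by rw [← map_pow, hzp, map_one]
      rcases lt_trichotomy (A.valuation z) 1 with h | h | h
      · exact absurd h2 (pow_lt_one₀ zero_le h hp.ne_zero).ne
      · exact h
      · exact absurd h2 (one_lt_pow₀ h hp.ne_zero).ne'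
    have h3 : lam ≤ 1 := by
      refine (A.valuation.map_sub_le ?_ ?_)
      · exact hvz.le
      · rw [map_one]
    exact absurd hx (not_lt.mpr (pow_le_one₀ zero_le h3))
  -- factorisation of `β ^ p - 1`
  have hfac : β ^ p - 1 = ∏ i ∈ Finset.range p, (β - z ^ i) := by
    have h1 := X_pow_sub_C_eq_prod hzprim hp.pos (one_pow p : (1 : Qb) ^ p = 1)
    have h2 := congrArg (Polynomial.eval β) h1
    simp only [eval_sub, eval_pow, eval_X, eval_C, eval_prod, mul_one] at h2
    exact h2
  -- some factor is small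
  have hex : ∃ i ∈ Finset.range p, A.valuation (β - z ^ i) < lam := by
    by_contra hcon
    push Not at hcon
    have h1 : lam ^ p ≤ A.valuation (β ^ p - 1) := by
      rw [hfac, map_prod]
      calc lam ^ p = ∏ _i ∈ Finset.range p, lam := by
            rw [Finset.prod_const, Finset.card_range]
        _ ≤ ∏ i ∈ Finset.range p, A.valuation (β - z ^ i) :=
            Finset.prod_le_prod' fun i hi => hcon i hi
    rw [hβp] at h1
    exact absurd hx (not_lt.mpr h1)
  obtain ⟨i, -, hi⟩ := hex
  -- the root of unity `ξ = σ β / β`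
  have hσα : σ (α : Qb) = α := hσfix α
  have hσx : σ (x : Qb) = x := hσfix x
  set ξ : Qb := σ β / β with hξ
  have hσβ : σ β = ξ * β := by rw [hξ, div_mul_cancel₀ _ hβ0]
  have hξp : ξ ^ p = 1 := by
    rw [hξ, div_pow, ← map_pow, hβp, map_mul, map_pow, hσα, hσx, div_self]
    rw [← hβp]
    exact pow_ne_zero _ hβ0
  have hvξ : A.valuation ξ = 1 := by
    have h2 : A.valuation ξ ^ p = 1 := by rw [← map_pow, hξp, map_one]
    rcases lt_trichotomy (A.valuation ξ) 1 with h | h | h
    · exact absurd h2 (pow_lt_one₀ zero_le h hp.ne_zero).ne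
    · exact h
    · exact absurd h2 (one_lt_pow₀ h hp.ne_zero).ne'
  have hvzi : A.valuation (z ^ i) = 1 := by
    have h2 : A.valuation (z ^ i) ^ p = 1 := by
      rw [← map_pow, ← pow_mul, mul_comm, pow_mul, hzp, one_pow, map_one]
    rcases lt_trichotomy (A.valuation (z ^ i)) 1 with h | h | h
    · exact absurd h2 (pow_lt_one₀ zero_le h hp.ne_zero).ne
    · exact h
    · exact absurd h2 (one_lt_pow₀ h hp.ne_zero).ne'
  have hi' : A.valuation (ξ * β - z ^ i) < lam := by
    have h1 : σ (β - z ^ i) = ξ * β - z ^ i := by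
      rw [map_sub, map_pow, hσz, hσβ]
    rw [← h1, hval]
    exact hi
  have hξlt : A.valuation (ξ - 1) < lam := by
    have h1 : (ξ - 1) * z ^ i = (ξ * β - z ^ i) - ξ * (β - z ^ i) := by ring
    have h2 : A.valuation ((ξ - 1) * z ^ i) < lam := by
      rw [h1]
      refine A.valuation.map_sub_lt hi' ?_
      rw [map_mul, hvξ, one_mul]
      exact hi
    rw [map_mul, hvzi, mul_one] at h2
    exact h2
  have hξ1 : ξ = 1 := by
    by_contra hne
    have h1 := valuation_sub_one_le_of_roots_of_unity A hp ξ z hξp hne hzp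
    exact absurd hξlt (not_lt.mpr h1)
  have hfin : σ β = β := by rw [hσβ, hξ1, one_mul]
  rw [hβ, map_mul, hσx] at hfin
  exact mul_right_cancel₀ hx0 hfin

open Fermat.Agent.S14.Wiring in
/-- **(L3)** The local dictionary as an equivalence: `D_A ∩ G_K` fixes a `p`-th root of `α` iff
`α` is a `p`-th power to every precision at the prime `v` of `K` below `A`. -/
theorem decomposition_fixes_iff_local_pow {p : ℕ} [Fact p.Prime] (K : IntermediateField ℚ Qb)
    [NumberField K] (ζ : K) (hζ : IsPrimitiveRoot ζ p) (θ : Qb) (α : K) (hα : α ≠ 0)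
    (hθ : θ ^ p = ((α : K) : Qb))
    (A : ValuationSubring Qb) {ℓ : ℕ} (hℓ : ℓ.Prime) (hA : A.LiesOverPrime ℓ)
    (v : HeightOneSpectrum (𝓞 K)) (hv : v.asIdeal = ValRing.primeUnder K A) :
    (∀ σ ∈ A.decompositionSubgroup ℚ, σ ∈ K.fixingSubgroup → σ θ = θ) ↔
      ∀ n : ℕ, ∃ x : K, v.valuation K (α * x ^ p - 1) ≤ WithZero.exp (-(n : ℤ)) := by
  have hp : p.Prime := Fact.out
  constructor
  · intro hfix n
    have hAv : ∀ x : 𝓞 K, x ∈ v.asIdeal → (((x : K) : Qb)) ∈ A.nonunits := by
      intro x hx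
      rw [hv, ValRing.mem_primeUnder] at hx
      exact A.mem_nonunits_iff.mpr hx
    obtain ⟨x, -, -, hx⟩ := exists_local_pow_of_decomposition K ζ hζ θ α hα hθ A hℓ hA v hAv hfix
      (n + 1) (Nat.succ_pos n)
    refine ⟨x, hx.trans ?_⟩
    rw [WithZero.exp_le_exp]
    push_cast
    linarith
  · intro h σ hσD hσK
    set c : K := (ζ - 1) ^ p with hc
    have hζ1 : ζ ≠ 1 := hζ.ne_one hp.one_lt
    have hc0 : c ≠ 0 := pow_ne_zero _ (sub_ne_zero.mpr hζ1)
    have hvc : v.valuation K c ≠ 0 := by rw [Ne, map_eq_zero]; exact hc0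
    set m : ℤ := WithZero.log (v.valuation K c) with hm
    have hvm : v.valuation K c = WithZero.exp m := (WithZero.exp_log hvc).symm
    obtain ⟨x, hx⟩ := h (1 - m).toNat
    have hlt : v.valuation K (α * x ^ p - 1) < v.valuation K c := by
      refine lt_of_le_of_lt hx ?_
      rw [hvm, WithZero.exp_lt_exp]
      have := Int.self_le_toNat (1 - m)
      linarith
    have hlt' := (ValRing.valuation_lt_iff hv (α * x ^ p - 1) c).mp hlt
    have e1 : (((α * x ^ p - 1 : K) : K) : Qb) = (α : Qb) * (x : Qb) ^ p - 1 := rfl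
    have e2 : ((c : K) : Qb) = ((ζ : Qb) - 1) ^ p := rfl
    rw [e1, e2, map_pow] at hlt'
    exact decomposition_fixes_of_valuation_lt K ζ hζ θ α hθ A x hlt' σ hσD hσK

end Fermat.Agent.CFT.Kummer
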