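import Mathlib
import Fermat.Agent.S14.Wiring.ValRing
import Fermat.Agent.Lib.MinkowskiBridge
import Fermat.Agent.S55.Glue.LevelGalois
import Fermat.Prelude.Def_GroupCohomology_ContinuousUnramified

/-!
# (ORD) In an unramified extension the rational prime is a uniformizer

`Qb = AlgebraicClosure ℚ`, `A` a valuation subring of `Qb` lying over the prime number `q`.

* `intValuation_natCast_of_inertia_le` : if `N ≤ Qb` is a finite normal extension of `ℚ` fixed
  by the inertia group of `A`, then `q` has valuation `exp (-1)` at the prime of `𝓞 N` under `A`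
  (ramification index one).
* `exists_valuation_eq_zpow_of_inertia_le` : in that situation every `y ∈ N`, `y ≠ 0`, has
  `A.valuation y = A.valuation q ^ n` for some `n : ℤ`.
* `exists_valuation_eq_zpow_of_isUnramifiedOutside` : the same for every (not necessarily
  normal) `F` unramified outside `S` and every `q ∉ S`.
-/

set_option autoImplicit false

open scoped NumberField
open IsDedekindDomain

namespace Fermat.Agent.CFT.Kummer

local notation "Qb" => AlgebraicClosure ℚ
local notation "Gq" => (AlgebraicClosure ℚ ≃ₐ[ℚ] AlgebraicClosure ℚ)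

open Fermat.Agent.S14.Wiring.ValRing

/-- The prime of `𝓞 N` under `A` has trivial inertia group in `Gal(N/ℚ)` as soon as the inertia
group of `A` fixes `N`. -/
theorem inertia_primeUnder_eq_bot (N : IntermediateField ℚ Qb) [FiniteDimensional ℚ N]
    [Normal ℚ N] [NumberField N] {q : ℕ} (hq : q.Prime) (A : ValuationSubring Qb)
    (hA : A.LiesOverPrime q) (hI : A.inertiaSubgroupIn ℚ ≤ N.fixingSubgroup)
    (τ : N ≃ₐ[ℚ] N) (hτ : ∀ x : 𝓞 N, τ • x - x ∈ primeUnder N A) : τ = 1 := by
  obtain ⟨σ, hσ, hσx⟩ := Fermat.Agent.Lib.MinkowskiBridge.exists_mem_inertia_restrict A hq hA N τ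
    (by
      intro x hx
      have hx' : IsIntegral ℤ x := (isIntegral_algebraMap_iff (algebraMap N Qb).injective).mp hx
      obtain ⟨x', rfl⟩ : ∃ x' : 𝓞 N, (x' : N) = x := ⟨⟨x, hx'⟩, rfl⟩
      have h1 := hτ x'
      rw [mem_primeUnder] at h1
      have h2 : algebraMap (𝓞 N) N (τ • x') = τ (algebraMap (𝓞 N) N x') :=
        algebraMap.smul' τ x' N
      have h3 : algebraMap N Qb (algebraMap (𝓞 N) N (τ • x' - x')) =
          algebraMap N Qb (τ (algebraMap (𝓞 N) N x')) - algebraMap N Qb (algebraMap (𝓞 N) N x') := by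
        rw [map_sub, h2, map_sub]
      have h1' : A.valuation (algebraMap N Qb (algebraMap (𝓞 N) N (τ • x' - x'))) < 1 := h1
      rw [h3] at h1'
      exact h1')
  have hσN := hI hσ
  ext x
  have h1 := (IntermediateField.mem_fixingSubgroup_iff N σ).mp hσN x x.2
  rw [hσx x] at h1
  exact_mod_cast h1

/-- The rational prime under `A` generates the prime of `ℤ` under the prime of `𝓞 N` under
`A`. -/
theorem under_primeUnder (N : IntermediateField ℚ Qb) {q : ℕ} (hq : q.Prime)
    (A : ValuationSubring Qb) (hA : A.LiesOverPrime q) :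
    (primeUnder N A).under ℤ = Ideal.span {(q : ℤ)} := by
  have hmax : (Ideal.span {(q : ℤ)}).IsMaximal :=
    PrincipalIdealRing.isMaximal_of_irreducible
      (Nat.prime_iff_prime_int.mp hq).irreducible
  symm
  refine hmax.eq_of_le (Ideal.IsPrime.ne_top (Ideal.IsPrime.under ℤ (primeUnder N A))) ?_
  rw [Ideal.span_le, Set.singleton_subset_iff]
  show algebraMap ℤ (𝓞 N) (q : ℤ) ∈ primeUnder N A
  have h1 : ((q : ℕ) : 𝓞 N) ∈ primeUnder N A := (natCast_mem_primeUnder_iff N A q).mpr hA
  simpa using h1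

/-- **(ORD), integral form.** If the inertia group of `A` fixes the finite normal extension `N`,
then the rational prime `q` under `A` has valuation `exp (-1)` at the prime of `𝓞 N` under `A`. -/
theorem intValuation_natCast_of_inertia_le (N : IntermediateField ℚ Qb) [FiniteDimensional ℚ N]
    [Normal ℚ N] [NumberField N] {q : ℕ} (hq : q.Prime) (A : ValuationSubring Qb)
    (hA : A.LiesOverPrime q) (hI : A.inertiaSubgroupIn ℚ ≤ N.fixingSubgroup) :
    (placeUnder N A hq hA).intValuation ((q : ℕ) : 𝓞 N) = WithZero.exp (-1 : ℤ) := by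
  have hgal : IsGalois ℚ N := ⟨⟩
  set P : Ideal (𝓞 N) := primeUnder N A with hP
  have hcard := Ideal.card_inertia_eq_ramificationIdxIn (G := N ≃ₐ[ℚ] N) (P.under ℤ) P
  rw [Ideal.ramificationIdxIn_eq_ramificationIdx (P.under ℤ) P (N ≃ₐ[ℚ] N)] at hcard
  have h1 : Nat.card (P.inertia (N ≃ₐ[ℚ] N)) = 1 := by
    have htriv : ∀ a : ↥(P.inertia (N ≃ₐ[ℚ] N)), (a : N ≃ₐ[ℚ] N) = 1 := fun a =>
      inertia_primeUnder_eq_bot N hq A hA hI a.1 (fun x => (AddSubgroup.mem_inertia.mp a.2) x)
    have : Subsingleton ↥(P.inertia (N ≃ₐ[ℚ] N)) :=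
      ⟨fun a b => Subtype.ext ((htriv a).trans (htriv b).symm)⟩
    exact Nat.card_unique
  rw [h1] at hcard
  have hunder : P.under ℤ = Ideal.span {(q : ℤ)} := under_primeUnder N hq A hA
  have hmap : (P.under ℤ).map (algebraMap ℤ (𝓞 N)) = Ideal.span {((q : ℕ) : 𝓞 N)} := by
    rw [hunder, Ideal.map_span, Set.image_singleton]
    simp
  have hq0 : ((q : ℕ) : 𝓞 N) ≠ 0 := by
    exact_mod_cast hq.ne_zero
  have hne : (P.under ℤ).map (algebraMap ℤ (𝓞 N)) ≠ ⊥ := by
    rw [hmap, Ne, Ideal.span_singleton_eq_bot]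
    exact hq0
  have hmult := Ideal.IsDedekindDomain.ramificationIdx_eq_multiplicity (P.under ℤ) P hne
  rw [← hcard, hmap] at hmult
  rw [(placeUnder N A hq hA).intValuation_eq_exp_neg_multiplicity hq0]
  show WithZero.exp (-(multiplicity P (Ideal.span {((q : ℕ) : 𝓞 N)}) : ℤ)) = _
  rw [← hmult]
  rfl

/-- **(ORD), normal form.** If the inertia group of `A` (over the prime number `q`) fixes the
finite normal extension `N`, every nonzero element of `N` has the valuation of a power of `q`. -/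
theorem exists_valuation_eq_zpow_of_inertia_le (N : IntermediateField ℚ Qb)
    [FiniteDimensional ℚ N] [Normal ℚ N] {q : ℕ} (hq : q.Prime) (A : ValuationSubring Qb)
    (hA : A.LiesOverPrime q) (hI : A.inertiaSubgroupIn ℚ ≤ N.fixingSubgroup)
    (y : Qb) (hy : y ∈ N) (hy0 : y ≠ 0) :
    ∃ n : ℤ, A.valuation y = A.valuation (q : Qb) ^ n := by
  have hnf : NumberField N :=
    { to_charZero := inferInstance, to_finiteDimensional := inferInstance }
  set v := placeUnder N A hq hA with hv
  have hvq : v.valuation N (algebraMap (𝓞 N) N ((q : ℕ) : 𝓞 N)) = WithZero.exp (-1 : ℤ) := by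
    rw [v.valuation_of_algebraMap]
    exact intValuation_natCast_of_inertia_le N hq A hA hI
  set y' : N := ⟨y, hy⟩ with hy'
  have hy'0 : y' ≠ 0 := fun h => hy0 (congrArg Subtype.val h)
  have hvy : v.valuation N y' ≠ 0 := by rw [Ne, map_eq_zero]; exact hy'0
  set m : ℤ := WithZero.log (v.valuation N y') with hm
  have hvm : v.valuation N y' = WithZero.exp m := (WithZero.exp_log hvy).symm
  have h1 : v.valuation N (y' * (algebraMap (𝓞 N) N ((q : ℕ) : 𝓞 N)) ^ m) = 1 := by
    rw [map_mul, map_zpow₀, hvq, hvm, ← WithZero.exp_zsmul, ← WithZero.exp_add,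
      ← WithZero.exp_zero]
    congr 1
    simp
  have h2 := (valuation_eq_one_iff (v := v) (A := A) rfl _).mp h1
  have e1 : ((y' * (algebraMap (𝓞 N) N ((q : ℕ) : 𝓞 N)) ^ m : N) : Qb) = y * (q : Qb) ^ m := by
    have e2 : ((algebraMap (𝓞 N) N ((q : ℕ) : 𝓞 N) : N) : Qb) = (q : Qb) := by simp
    rw [← e2]
    push_cast
    rfl
  rw [e1, map_mul, map_zpow₀] at h2
  refine ⟨-m, ?_⟩
  rw [zpow_neg]
  exact eq_inv_of_mul_eq_one_left h2

/-- **(ORD).** If `F` is unramified outside `S` and `A` lies over a prime `q ∉ S`, every nonzero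
element of `F` has the valuation of a power of `q`: the rational prime is a uniformizer. -/
theorem exists_valuation_eq_zpow_of_isUnramifiedOutside (S : Finset Nat.Primes)
    (F : IntermediateField ℚ Qb) (hF : F.IsUnramifiedOutside S) (q : Nat.Primes) (hqS : q ∉ S)
    (A : ValuationSubring Qb) (hA : A.LiesOverPrime (q : ℕ)) (y : Qb) (hy : y ∈ F)
    (hy0 : y ≠ 0) : ∃ n : ℤ, A.valuation y = A.valuation ((q : ℕ) : Qb) ^ n := by
  have hN := Fermat.Agent.S55.Glue.isUnramifiedOutside_normalClosure hF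
  have := hF.1
  have := hN.1
  have hac : IsAlgClosure ℚ Qb := AlgebraicClosure.instIsAlgClosure ℚ
  have hnQb : Normal ℚ Qb := inferInstance
  have hnorm : Normal ℚ (IntermediateField.normalClosure ℚ F Qb) := normalClosure.normal ℚ F Qb
  exact exists_valuation_eq_zpow_of_inertia_le _ q.2 A hA (hN.2 q hqS A hA) y
    (IntermediateField.le_normalClosure F hy) hy0

/-- **(ORD), multiplicative form**: `y * q ^ n` is a unit of `A` for a suitable `n : ℤ`. -/
theorem exists_valuation_mul_zpow_eq_one_of_isUnramifiedOutside (S : Finset Nat.Primes)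
    (F : IntermediateField ℚ Qb) (hF : F.IsUnramifiedOutside S) (q : Nat.Primes) (hqS : q ∉ S)
    (A : ValuationSubring Qb) (hA : A.LiesOverPrime (q : ℕ)) (y : Qb) (hy : y ∈ F)
    (hy0 : y ≠ 0) : ∃ n : ℤ, A.valuation (y * ((q : ℕ) : Qb) ^ n) = 1 := by
  obtain ⟨n, hn⟩ := exists_valuation_eq_zpow_of_isUnramifiedOutside S F hF q hqS A hA y hy hy0
  have hq0 : A.valuation ((q : ℕ) : Qb) ≠ 0 := by
    rw [Ne, map_eq_zero]
    exact_mod_cast q.2.ne_zero
  refine ⟨-n, ?_⟩
  rw [map_mul, map_zpow₀, hn, zpow_neg, mul_inv_cancel₀ (zpow_ne_zero n hq0)]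

/-- **(ORD), uniformizer form**: outside `S` the rational prime `q` is a uniformizer of `A` on
`F`: every element of `F` in the maximal ideal of `A` is divisible by `q` in `A`. -/
theorem valuation_le_natCast_of_isUnramifiedOutside (S : Finset Nat.Primes)
    (F : IntermediateField ℚ Qb) (hF : F.IsUnramifiedOutside S) (q : Nat.Primes) (hqS : q ∉ S)
    (A : ValuationSubring Qb) (hA : A.LiesOverPrime (q : ℕ)) (y : Qb) (hy : y ∈ F)
    (hy1 : A.valuation y < 1) : A.valuation y ≤ A.valuation ((q : ℕ) : Qb) := by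
  by_cases hy0 : y = 0
  · rw [hy0, map_zero]
    exact zero_le
  obtain ⟨n, hn⟩ := exists_valuation_eq_zpow_of_isUnramifiedOutside S F hF q hqS A hA y hy hy0
  have hq1 : A.valuation ((q : ℕ) : Qb) < 1 := A.mem_nonunits_iff.mp hA
  have hq0 : 0 < A.valuation ((q : ℕ) : Qb) := by
    rw [zero_lt_iff, Ne, map_eq_zero]
    exact_mod_cast q.2.ne_zero
  rw [hn] at hy1 ⊢
  have hn1 : 1 ≤ n := by
    by_contra hcon
    have hn0 : n ≤ 0 := by omega
    have h2 : 1 ≤ A.valuation ((q : ℕ) : Qb) ^ n := by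
      obtain ⟨k, rfl⟩ : ∃ k : ℕ, n = -(k : ℤ) := ⟨(-n).toNat, by omega⟩
      rw [zpow_neg, zpow_natCast]
      exact (one_le_inv₀ (pow_pos hq0 k)).mpr (pow_le_one₀ hq0.le hq1.le)
    exact absurd hy1 (not_lt.mpr h2)
  obtain ⟨k, rfl⟩ : ∃ k : ℕ, n = (k : ℤ) + 1 := ⟨(n - 1).toNat, by omega⟩
  rw [zpow_add₀ hq0.ne', zpow_one, zpow_natCast]
  exact mul_le_of_le_one_left' (pow_le_one₀ hq0.le hq1.le)

end Fermat.Agent.CFT.Kummer
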